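import Mathlib
import Fermat.Agent.S14.H839.Main

/-!
# S55 / analytic second inequality, block RAY-N1 (helper839): basic ideal theory

`m` is a nonzero ideal of `𝓞 K`, `φ : (Ideal (𝓞 K))⁰ →* G` a homomorphism which is trivial on the
principal ideals generated by elements `≡ 1 mod m` (`PrinTriv`).

* `phi_spanNZ_congr` : `φ (a)` only depends on `a mod m` for `a` prime to `m`;
* `Good m φ h x` : the residue class of `x` modulo `m` is a unit class on which `φ = h`;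
* `exists_coprime_rep` : every ideal class contains an integral ideal prime to `m`.
-/

set_option autoImplicit false
set_option linter.unusedSectionVars false

open NumberField Ideal

open scoped nonZeroDivisors

namespace Fermat.Agent.S55.SI839

variable {K : Type*} [Field K] [NumberField K]

/-- the principal ideal generated by a nonzero element, as a nonzero ideal -/
noncomputable def spanNZ (a : 𝓞 K) (ha : a ≠ 0) : (Ideal (𝓞 K))⁰ :=
  ⟨Ideal.span {a}, mem_nonZeroDivisors_of_ne_zero (by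
    rw [Ne, Ideal.zero_eq_bot, Ideal.span_singleton_eq_bot]; exact ha)⟩

@[simp] lemma coe_spanNZ (a : 𝓞 K) (ha : a ≠ 0) :
    ((spanNZ a ha : (Ideal (𝓞 K))⁰) : Ideal (𝓞 K)) = Ideal.span {a} := rfl

lemma spanNZ_mul (a b : 𝓞 K) (ha : a ≠ 0) (hb : b ≠ 0) :
    spanNZ (a * b) (mul_ne_zero ha hb) = spanNZ a ha * spanNZ b hb := by
  apply Subtype.ext
  simp only [coe_spanNZ, Submonoid.coe_mul]
  rw [Ideal.span_singleton_mul_span_singleton]

lemma spanNZ_unit_mul (u : (𝓞 K)ˣ) (a : 𝓞 K) (ha : a ≠ 0)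
    (hua : (u : 𝓞 K) * a ≠ 0) : spanNZ ((u : 𝓞 K) * a) hua = spanNZ a ha := by
  apply Subtype.ext
  simp only [coe_spanNZ]
  exact Ideal.span_singleton_mul_left_unit u.isUnit a

variable (m : Ideal (𝓞 K)) {G : Type*} [CommGroup G] (φ : (Ideal (𝓞 K))⁰ →* G)

/-- `φ` is trivial on principal ideals generated by elements congruent to `1` modulo `m`. -/
def PrinTriv : Prop :=
  ∀ (a : 𝓞 K) (ha : a ≠ 0), a - 1 ∈ m → φ (spanNZ a ha) = 1

variable {m φ}

lemma isCoprime_span_of_sub_mem {a a' : 𝓞 K} (hc : IsCoprime (Ideal.span {a}) m)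
    (haa : a - a' ∈ m) : IsCoprime (Ideal.span {a'}) m := by
  rw [Ideal.isCoprime_iff_sup_eq] at hc ⊢
  rw [eq_top_iff, ← hc]
  refine sup_le ?_ le_sup_right
  rw [Ideal.span_singleton_le_iff_mem]
  have h1 : a' ∈ Ideal.span {a'} ⊔ m := Ideal.mem_sup_left (Ideal.mem_span_singleton_self a')
  have h2 : a - a' ∈ Ideal.span {a'} ⊔ m := Ideal.mem_sup_right haa
  have := add_mem h1 h2
  rwa [add_sub_cancel] at this

/-- an inverse modulo `m` of an element prime to `m` -/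
lemma exists_inverse_mod {a : 𝓞 K} (hc : IsCoprime (Ideal.span {a}) m) :
    ∃ b : 𝓞 K, b ≠ 0 ∧ a * b - 1 ∈ m := by
  obtain ⟨i, hi, j, hj, hij⟩ := Ideal.isCoprime_iff_exists.mp hc
  obtain ⟨b, rfl⟩ := Ideal.mem_span_singleton'.mp hi
  by_cases hb : b = 0
  · subst hb
    rw [zero_mul, zero_add] at hij
    subst hij
    have hm : m = ⊤ := (Ideal.eq_top_iff_one m).mpr hj
    exact ⟨1, one_ne_zero, by rw [hm]; exact Submodule.mem_top⟩
  · refine ⟨b, hb, ?_⟩
    have : a * b - 1 = -j := by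
      have : b * a = 1 - j := by rw [← hij]; ring
      rw [mul_comm, this]; ring
    rw [this]
    exact neg_mem hj

/-- `φ (a)` only depends on the residue class of `a` modulo `m`, for `a` prime to `m`. -/
theorem phi_spanNZ_congr (hφ : PrinTriv m φ) {a a' : 𝓞 K} (ha : a ≠ 0) (ha' : a' ≠ 0)
    (hc : IsCoprime (Ideal.span {a}) m) (haa : a - a' ∈ m) :
    φ (spanNZ a ha) = φ (spanNZ a' ha') := by
  obtain ⟨b, hb, hab⟩ := exists_inverse_mod hc
  have hab' : a' * b - 1 ∈ m := by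
    have e : a' * b - 1 = (a * b - 1) - (a - a') * b := by ring
    rw [e]
    exact sub_mem hab (Ideal.mul_mem_right _ _ haa)
  have h1 := hφ (a * b) (mul_ne_zero ha hb) hab
  have h2 := hφ (a' * b) (mul_ne_zero ha' hb) hab'
  rw [spanNZ_mul a b ha hb, map_mul] at h1
  rw [spanNZ_mul a' b ha' hb, map_mul] at h2
  exact mul_right_cancel (h1.trans h2.symm)

variable (m φ)

/-- the residue class of `x` modulo `m` is prime to `m` and `φ` takes the value `h` on it -/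
def Good (h : G) (x : 𝓞 K) : Prop :=
  ∃ (a : 𝓞 K) (ha : a ≠ 0), a - x ∈ m ∧ IsCoprime (Ideal.span {a}) m ∧ φ (spanNZ a ha) = h

variable {m φ}

lemma good_add_iff (h : G) (x : 𝓞 K) {l : 𝓞 K} (hl : l ∈ m) :
    Good m φ h (x + l) ↔ Good m φ h x := by
  constructor
  · rintro ⟨a, ha, hax, hc, hh⟩
    refine ⟨a, ha, ?_, hc, hh⟩
    have e : a - x = (a - (x + l)) + l := by ring
    rw [e]
    exact add_mem hax hl
  · rintro ⟨a, ha, hax, hc, hh⟩
    refine ⟨a, ha, ?_, hc, hh⟩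
    have e : a - (x + l) = (a - x) - l := by ring
    rw [e]
    exact sub_mem hax hl

lemma good_iff_of_sub_mem (h : G) {x y : 𝓞 K} (hxy : x - y ∈ m) :
    Good m φ h x ↔ Good m φ h y := by
  have e : x = y + (x - y) := by ring
  rw [e]
  exact good_add_iff h y hxy

theorem good_iff_of_ne_zero (hφ : PrinTriv m φ) (h : G) {x : 𝓞 K} (hx : x ≠ 0) :
    Good m φ h x ↔ IsCoprime (Ideal.span {x}) m ∧ φ (spanNZ x hx) = h := by
  constructor
  · rintro ⟨a, ha, hax, hc, hh⟩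
    exact ⟨isCoprime_span_of_sub_mem hc hax, by rw [← phi_spanNZ_congr hφ ha hx hc hax, hh]⟩
  · rintro ⟨hc, hh⟩
    exact ⟨x, hx, by simp, hc, hh⟩

lemma good_unit_mul_iff (hφ : PrinTriv m φ) (h : G) (u : (𝓞 K)ˣ) {x : 𝓞 K} (hx : x ≠ 0) :
    Good m φ h ((u : 𝓞 K) * x) ↔ Good m φ h x := by
  have hux : (u : 𝓞 K) * x ≠ 0 := mul_ne_zero u.ne_zero hx
  rw [good_iff_of_ne_zero hφ h hux, good_iff_of_ne_zero hφ h hx, spanNZ_unit_mul u x hx hux,
    Ideal.span_singleton_mul_left_unit u.isUnit x]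

/-- Every ideal class contains an integral ideal prime to `m`. -/
theorem exists_coprime_rep (hm : m ≠ ⊥) (C : ClassGroup (𝓞 K)) :
    ∃ J : (Ideal (𝓞 K))⁰, ClassGroup.mk0 J = C ∧ IsCoprime (J : Ideal (𝓞 K)) m := by
  by_cases hmt : m = ⊤
  · obtain ⟨J, hJ⟩ := ClassGroup.mk0_surjective C
    refine ⟨J, hJ, ?_⟩
    rw [Ideal.isCoprime_iff_sup_eq, hmt, sup_top_eq]
  obtain ⟨I₀, hI₀⟩ := ClassGroup.mk0_surjective C⁻¹
  have hI₀ne : (I₀ : Ideal (𝓞 K)) ≠ ⊥ := nonZeroDivisors.coe_ne_zero I₀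
  have hle : (I₀ : Ideal (𝓞 K)) * m ≤ (I₀ : Ideal (𝓞 K)) := Ideal.mul_le_left
  obtain ⟨a, ha⟩ := IsDedekindDomain.exists_sup_span_eq hle (mul_ne_zero hI₀ne hm)
  have hamem : a ∈ (I₀ : Ideal (𝓞 K)) := by
    rw [← ha]
    exact Ideal.mem_sup_right (Ideal.mem_span_singleton_self a)
  obtain ⟨A, hA⟩ := Ideal.dvd_iff_le.mpr ((Ideal.span_singleton_le_iff_mem _).mpr hamem)
  have hcop : A ⊔ m = ⊤ := by
    have h1 : (I₀ : Ideal (𝓞 K)) * (m ⊔ A) = (I₀ : Ideal (𝓞 K)) * ⊤ := by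
      rw [Ideal.mul_sup, ← hA, Ideal.mul_top]
      exact ha
    have := mul_left_cancel₀ hI₀ne h1
    rwa [sup_comm] at this
  have hAne : A ≠ ⊥ := by
    rintro rfl
    rw [bot_sup_eq] at hcop
    exact hmt hcop
  have hAmem : A ∈ (Ideal (𝓞 K))⁰ := mem_nonZeroDivisors_iff_ne_zero.mpr hAne
  have ha0 : a ≠ 0 := by
    rintro rfl
    rw [Ideal.span_singleton_zero] at hA
    exact mul_ne_zero hI₀ne hAne hA.symm
  refine ⟨⟨A, hAmem⟩, ?_, Ideal.isCoprime_iff_sup_eq.mpr hcop⟩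
  have h1 : ClassGroup.mk0 (spanNZ a ha0) = 1 :=
    (ClassGroup.mk0_eq_one_iff (spanNZ a ha0).2).mpr ⟨⟨a, rfl⟩⟩
  have h2 : spanNZ a ha0 = I₀ * ⟨A, hAmem⟩ := Subtype.ext hA
  rw [h2, map_mul, hI₀] at h1
  exact (inv_mul_eq_one.mp h1).symm

end Fermat.Agent.S55.SI839
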