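import Mathlib
import Fermat.Agent.S55.SI839.Basic

/-!
# S55 / RAY-N1 (helper839): weighted orbit sums

The sum of `G s b * κ b` over a nonzero ideal `J`, for a weight `κ` invariant under units, in terms
of a weighted partial zeta function of the class of `J⁻¹`.
-/

set_option autoImplicit false
set_option linter.unusedSectionVars false

open NumberField NumberField.mixedEmbedding NumberField.Units Ideal

open scoped nonZeroDivisors

open Fermat.Agent.S14.H839

namespace Fermat.Agent.S55.SI839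

variable {K : Type*} [Field K] [NumberField K]

open scoped Classical

variable {C : ClassGroup (𝓞 K)} {J : (Ideal (𝓞 K))⁰}

lemma coe_param (hJ : ClassGroup.mk0 J = C⁻¹) (I : ClassIdeals K C) (u : (𝓞 K)ˣ) :
    ((param hJ (I, u) : (J : Ideal (𝓞 K))) : 𝓞 K) = (u : 𝓞 K) * gen hJ I := rfl

lemma hasSum_G_param_weighted (hJ : ClassGroup.mk0 J = C⁻¹) (s : ℝ) (κ : 𝓞 K → ℝ)
    (hκ : ∀ (u : (𝓞 K)ˣ) (a : 𝓞 K), a ≠ 0 → κ ((u : 𝓞 K) * a) = κ a) (I : ClassIdeals K C) :
    HasSum (fun u : (𝓞 K)ˣ => G K s (param hJ (I, u)) * κ (param hJ (I, u)))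
      ((torsionOrder K : ℝ) * ((Ideal.absNorm (J : Ideal (𝓞 K)) : ℝ) *
        (Ideal.absNorm (I.1 : Ideal (𝓞 K)) : ℝ)) ^ (-s) * κ (gen hJ I)) := by
  have h := (hasSum_G_param hJ s I).mul_right (κ (gen hJ I))
  have e : (fun u : (𝓞 K)ˣ => G K s (param hJ (I, u)) * κ (param hJ (I, u))) =
      fun u : (𝓞 K)ˣ => G K s (param hJ (I, u)) * κ (gen hJ I) := by
    funext u
    rw [coe_param, hκ u _ (gen_ne_zero hJ I)]
  rw [e]
  exact h

/-- summability of the partial zeta function of a class (for `1 < s ≤ 2`) -/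
theorem summable_classIdeals (C : ClassGroup (𝓞 K)) {s : ℝ} (hs1 : 1 < s) (hs2 : s ≤ 2) :
    Summable fun I : ClassIdeals K C => (Ideal.absNorm (I.1 : Ideal (𝓞 K)) : ℝ) ^ (-s) := by
  obtain ⟨J, hJ⟩ := ClassGroup.mk0_surjective C⁻¹
  have hsum : Summable fun b : (J : Ideal (𝓞 K)) => G K s b :=
    (summable_G K hs1 hs2).subtype _
  have h2 : Summable fun p : ClassIdeals K C × (𝓞 K)ˣ => G K s (param hJ p) :=
    hsum.comp_injective (param_injective hJ)
  have h3 := h2.prod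
  simp_rw [(hasSum_G_param hJ s _).tsum_eq] at h3
  have hJne : (J : Ideal (𝓞 K)) ≠ ⊥ := coe_ne_bot J
  have hN0 : (0 : ℝ) < (Ideal.absNorm (J : Ideal (𝓞 K)) : ℝ) := by
    have : 0 < Ideal.absNorm (J : Ideal (𝓞 K)) :=
      Nat.pos_of_ne_zero (by rw [Ne, Ideal.absNorm_eq_zero_iff]; exact hJne)
    exact_mod_cast this
  have hw : (0 : ℝ) < torsionOrder K := by exact_mod_cast torsionOrder_pos K
  have hc : (torsionOrder K : ℝ) * (Ideal.absNorm (J : Ideal (𝓞 K)) : ℝ) ^ (-s) ≠ 0 :=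
    (mul_pos hw (Real.rpow_pos_of_pos hN0 _)).ne'
  have h4 : Summable fun I : ClassIdeals K C =>
      ((torsionOrder K : ℝ) * (Ideal.absNorm (J : Ideal (𝓞 K)) : ℝ) ^ (-s)) *
        (Ideal.absNorm (I.1 : Ideal (𝓞 K)) : ℝ) ^ (-s) := by
    refine h3.congr fun I => ?_
    rw [Real.mul_rpow (Nat.cast_nonneg _) (Nat.cast_nonneg _)]
    ring
  exact (summable_mul_left_iff hc).mp h4

theorem tsum_G_mul_ideal_eq (hJ : ClassGroup.mk0 J = C⁻¹) {s : ℝ} (hs1 : 1 < s) (hs2 : s ≤ 2)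
    (κ : 𝓞 K → ℝ) (hκ : ∀ (u : (𝓞 K)ˣ) (a : 𝓞 K), a ≠ 0 → κ ((u : 𝓞 K) * a) = κ a)
    (hκ0 : ∀ a, 0 ≤ κ a) (hκ1 : ∀ a, κ a ≤ 1) :
    ∑' b : (J : Ideal (𝓞 K)), G K s b * κ b =
      (torsionOrder K : ℝ) * (Ideal.absNorm (J : Ideal (𝓞 K)) : ℝ) ^ (-s) *
        ∑' I : ClassIdeals K C, κ (gen hJ I) * (Ideal.absNorm (I.1 : Ideal (𝓞 K)) : ℝ) ^ (-s) := by
  have hsumG : Summable fun b : (J : Ideal (𝓞 K)) => G K s b :=
    (summable_G K hs1 hs2).subtype _
  have hsum : Summable fun b : (J : Ideal (𝓞 K)) => G K s b * κ b := by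
    refine Summable.of_nonneg_of_le (fun b => mul_nonneg (G_nonneg K s _) (hκ0 _)) (fun b => ?_) hsumG
    exact mul_le_of_le_one_right (G_nonneg K s _) (hκ1 _)
  have hsupp : Function.support (fun b : (J : Ideal (𝓞 K)) => G K s b * κ b) ⊆
      Set.range (param hJ) := by
    intro b hb
    apply mem_range_param hJ
    rintro rfl
    apply hb
    simp only [ZeroMemClass.coe_zero]
    rw [G_zero K (by linarith), zero_mul]
  have h1 : ∑' p, G K s (param hJ p) * κ (param hJ p) =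
      ∑' b : (J : Ideal (𝓞 K)), G K s b * κ b :=
    (param_injective hJ).tsum_eq hsupp
  have h2 : Summable fun p : ClassIdeals K C × (𝓞 K)ˣ =>
      G K s (param hJ p) * κ (param hJ p) :=
    hsum.comp_injective (param_injective hJ)
  rw [← h1, Summable.tsum_prod' h2 (fun I => (hasSum_G_param_weighted hJ s κ hκ I).summable)]
  simp_rw [(hasSum_G_param_weighted hJ s κ hκ _).tsum_eq]
  rw [← tsum_mul_left]
  refine tsum_congr fun I => ?_
  rw [Real.mul_rpow (Nat.cast_nonneg _) (Nat.cast_nonneg _)]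
  ring

end Fermat.Agent.S55.SI839
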