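import Mathlib
import Fermat.Agent.S55.SI839.Weighted

/-!
# S55 / RAY-N1 (helper839): decomposition of an ideal `J` prime to `m` into residue classes
modulo `m`, and comparison of the sum of `G s` over a translate of an ideal with the sum over the
ideal itself.
-/

set_option autoImplicit false
set_option linter.unusedSectionVars false

open NumberField NumberField.mixedEmbedding NumberField.Units Ideal

open scoped nonZeroDivisors

open Fermat.Agent.S14.H839

namespace Fermat.Agent.S55.SI839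

variable {K : Type*} [Field K] [NumberField K]

open scoped Classical

section rep

variable {J m : Ideal (𝓞 K)}

lemma exists_rep (hc : IsCoprime J m) (r : 𝓞 K ⧸ m) :
    ∃ t : 𝓞 K, t ∈ J ∧ Ideal.Quotient.mk m t = r := by
  obtain ⟨x, rfl⟩ := Ideal.Quotient.mk_surjective r
  obtain ⟨i, hi, j, hj, hij⟩ := Ideal.isCoprime_iff_exists.mp hc
  refine ⟨x * i, Ideal.mul_mem_left _ _ hi, ?_⟩
  rw [Ideal.Quotient.eq]
  have e : x * i - x = -(x * j) := by
    have : i = 1 - j := by rw [← hij]; ring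
    rw [this]; ring
  rw [e]
  exact neg_mem (Ideal.mul_mem_left _ _ hj)

/-- a representative in `J` of a residue class modulo `m` -/
noncomputable def rep (hc : IsCoprime J m) (r : 𝓞 K ⧸ m) : 𝓞 K := (exists_rep hc r).choose

lemma rep_mem (hc : IsCoprime J m) (r : 𝓞 K ⧸ m) : rep hc r ∈ J := (exists_rep hc r).choose_spec.1

lemma mk_rep (hc : IsCoprime J m) (r : 𝓞 K ⧸ m) : Ideal.Quotient.mk m (rep hc r) = r :=
  (exists_rep hc r).choose_spec.2

/-- `J ≃ (𝓞 K ⧸ m) × (J ⊓ m)` for `J` prime to `m` -/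
noncomputable def cosetEquivJ (hc : IsCoprime J m) : ↥J ≃ (𝓞 K ⧸ m) × ↥(J ⊓ m) where
  toFun b := (Ideal.Quotient.mk m (b : 𝓞 K),
    ⟨(b : 𝓞 K) - rep hc (Ideal.Quotient.mk m (b : 𝓞 K)),
      ⟨sub_mem b.2 (rep_mem hc _), by
        change _ ∈ m
        rw [← Ideal.Quotient.eq, mk_rep]⟩⟩)
  invFun p := ⟨rep hc p.1 + (p.2 : 𝓞 K), add_mem (rep_mem hc _) p.2.2.1⟩
  left_inv b := by
    apply Subtype.ext
    simp
  right_inv p := by
    obtain ⟨q, l⟩ := p
    have h1 : Ideal.Quotient.mk m (rep hc q + (l : 𝓞 K)) = q := by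
      rw [map_add, mk_rep, Ideal.Quotient.eq_zero_iff_mem.mpr l.2.2, add_zero]
    refine Prod.ext h1 (Subtype.ext ?_)
    simp only [h1, add_sub_cancel_left]

lemma cosetEquivJ_symm_coe (hc : IsCoprime J m) (p : (𝓞 K ⧸ m) × ↥(J ⊓ m)) :
    (((cosetEquivJ hc).symm p : ↥J) : 𝓞 K) = rep hc p.1 + (p.2 : 𝓞 K) := rfl

theorem tsum_coset (hm : m ≠ ⊥) (hc : IsCoprime J m) {f : 𝓞 K → ℝ}
    (hf : Summable fun b : ↥J => f b) :
    ∑' b : ↥J, f b = ∑ᶠ r : 𝓞 K ⧸ m, ∑' l : ↥(J ⊓ m), f (rep hc r + (l : 𝓞 K)) := by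
  have : Finite (𝓞 K ⧸ m) := Ideal.finiteQuotientOfFreeOfNeBot m hm
  have : Fintype (𝓞 K ⧸ m) := Fintype.ofFinite _
  have hprod : Summable fun p : (𝓞 K ⧸ m) × ↥(J ⊓ m) => f (rep hc p.1 + (p.2 : 𝓞 K)) := by
    have := (cosetEquivJ hc).symm.summable_iff.mpr hf
    exact this
  have hq : ∀ r : 𝓞 K ⧸ m, Summable fun l : ↥(J ⊓ m) => f (rep hc r + (l : 𝓞 K)) :=
    fun r => hprod.prod_factor r
  rw [finsum_eq_sum_of_fintype, ← (cosetEquivJ hc).symm.tsum_eq]
  simp only [cosetEquivJ_symm_coe]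
  rw [Summable.tsum_prod' hprod hq, tsum_fintype]

end rep

/-- the bound for the comparison of a translate of an ideal with the ideal -/
noncomputable def DomSum (t : 𝓞 K) : ℝ := ∑' a : 𝓞 K, Dom K t a

lemma DomSum_nonneg (t : 𝓞 K) : 0 ≤ DomSum t := tsum_nonneg (Dom_nonneg K t)

lemma summable_G_translate (L : Ideal (𝓞 K)) (t : 𝓞 K) {s : ℝ} (hs1 : 1 < s) (hs2 : s ≤ 2) :
    Summable fun l : ↥L => G K s (t + (l : 𝓞 K)) := by
  have hinj : Function.Injective fun l : ↥L => t + (l : 𝓞 K) := by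
    intro a b hab
    exact Subtype.ext (add_left_cancel hab)
  exact (summable_G K hs1 hs2).comp_injective hinj

theorem abs_tsum_translate_sub_le (L : Ideal (𝓞 K)) (t : 𝓞 K) {s : ℝ} (hs1 : 1 < s)
    (hs2 : s ≤ 2) :
    |∑' l : ↥L, G K s (t + (l : 𝓞 K)) - ∑' l : ↥L, G K s (l : 𝓞 K)| ≤ DomSum t := by
  have hD : Summable fun b : ↥L => Dom K t b := (summable_Dom K _).subtype _
  have hle : ∀ b : ↥L, |G K s (t + b) - G K s b| ≤ Dom K t b := by
    intro b
    have := abs_G_add_sub_le K hs1.le hs2 t (b : 𝓞 K)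
    rwa [add_comm] at this
  have hsum : Summable fun b : ↥L => G K s (t + b) - G K s b :=
    Summable.of_norm_bounded hD (fun b => by rw [Real.norm_eq_abs]; exact hle b)
  have h1 : Summable fun l : ↥L => G K s (l : 𝓞 K) := (summable_G K hs1 hs2).subtype _
  rw [← (summable_G_translate L t hs1 hs2).tsum_sub h1]
  calc |∑' b : ↥L, (G K s (t + b) - G K s b)|
      ≤ ∑' b : ↥L, |G K s (t + b) - G K s b| := by
        rw [← Real.norm_eq_abs]
        refine (norm_tsum_le_tsum_norm ?_).trans (le_of_eq ?_)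
        · exact hsum.norm
        · rfl
    _ ≤ ∑' b : ↥L, Dom K t b :=
        Summable.tsum_le_tsum hle hsum.abs hD
    _ ≤ ∑' a : 𝓞 K, Dom K t a :=
        Summable.tsum_subtype_le _ _ (Dom_nonneg K _) (summable_Dom K _)

end Fermat.Agent.S55.SI839
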