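import Mathlib
import Fermat.Agent.S55.SI839.Coset

/-!
# S55 / RAY-N1 (helper839): the partial zeta function of a class with a congruence condition

For a nonzero ideal `J` prime to `m` and `h : G`, the sum of `N(I)^(-s)` over the ideals `I` in the
class of `J⁻¹`, prime to `m`, with `φ I = h * (φ J)⁻¹`, equals
`w⁻¹ * cnt h * N(m)^(-s) * ∑_a G s a` up to a bounded error (`abs_Zcls_sub_le`).
-/

set_option autoImplicit false
set_option linter.unusedSectionVars false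

open NumberField NumberField.mixedEmbedding NumberField.Units Ideal

open scoped nonZeroDivisors

open Fermat.Agent.S14.H839

namespace Fermat.Agent.S55.SI839

variable {K : Type*} [Field K] [NumberField K]

open scoped Classical

variable (m : Ideal (𝓞 K)) {Γ : Type*} [CommGroup Γ] (φ : (Ideal (𝓞 K))⁰ →* Γ)

/-- the indicator function of `Good m φ h` -/
noncomputable def kap (h : Γ) (x : 𝓞 K) : ℝ := if Good m φ h x then 1 else 0

lemma kap_nonneg (h : Γ) (x : 𝓞 K) : 0 ≤ kap m φ h x := by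
  unfold kap; split_ifs <;> norm_num

lemma kap_le_one (h : Γ) (x : 𝓞 K) : kap m φ h x ≤ 1 := by
  unfold kap; split_ifs <;> norm_num

variable {m φ}

lemma kap_eq_of_sub_mem (h : Γ) {x y : 𝓞 K} (hxy : x - y ∈ m) : kap m φ h x = kap m φ h y := by
  unfold kap
  rw [good_iff_of_sub_mem h hxy]

lemma kap_unit_mul (hφ : PrinTriv m φ) (h : Γ) (u : (𝓞 K)ˣ) (a : 𝓞 K) (ha : a ≠ 0) :
    kap m φ h ((u : 𝓞 K) * a) = kap m φ h a := by
  unfold kap
  rw [good_unit_mul_iff hφ h u ha]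

variable (m φ)

/-- the number of residue classes modulo `m` which are prime to `m` and on which `φ = h` -/
noncomputable def cnt (h : Γ) : ℝ := ∑ᶠ r : 𝓞 K ⧸ m, kap m φ h (Quotient.out r)

lemma cnt_nonneg (h : Γ) : 0 ≤ cnt m φ h := finsum_nonneg fun _ => kap_nonneg m φ h _

/-- the partial zeta function of the ideals in a class, prime to `m`, with given value of `φ` -/
noncomputable def Zcls (C : ClassGroup (𝓞 K)) (g : Γ) (s : ℝ) : ℝ :=
  ∑' I : ClassIdeals K C, if IsCoprime (I.1 : Ideal (𝓞 K)) m ∧ φ I.1 = g then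
    (Ideal.absNorm (I.1 : Ideal (𝓞 K)) : ℝ) ^ (-s) else 0

variable {m φ}

lemma good_gen_iff (hφ : PrinTriv m φ) {C : ClassGroup (𝓞 K)} {J : (Ideal (𝓞 K))⁰}
    (hJ : ClassGroup.mk0 J = C⁻¹) (hc : IsCoprime (J : Ideal (𝓞 K)) m) (h : Γ)
    (I : ClassIdeals K C) :
    Good m φ h (gen hJ I) ↔ IsCoprime (I.1 : Ideal (𝓞 K)) m ∧ φ I.1 = h * (φ J)⁻¹ := by
  rw [good_iff_of_ne_zero hφ h (gen_ne_zero hJ I)]
  have e : spanNZ (gen hJ I) (gen_ne_zero hJ I) = J * I.1 := Subtype.ext (span_gen hJ I)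
  rw [e, span_gen hJ I, map_mul, IsCoprime.mul_left_iff]
  constructor
  · rintro ⟨⟨-, h1⟩, h2⟩
    exact ⟨h1, by rw [← h2]; simp⟩
  · rintro ⟨h1, h2⟩
    exact ⟨⟨hc, h1⟩, by rw [h2]; simp⟩

/-- Step 1: the weighted lattice sum over `J` is the partial zeta function. -/
theorem tsum_G_kap_eq (hφ : PrinTriv m φ) {C : ClassGroup (𝓞 K)} {J : (Ideal (𝓞 K))⁰}
    (hJ : ClassGroup.mk0 J = C⁻¹) (hc : IsCoprime (J : Ideal (𝓞 K)) m) (h : Γ) {s : ℝ}
    (hs1 : 1 < s) (hs2 : s ≤ 2) :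
    ∑' b : (J : Ideal (𝓞 K)), G K s b * kap m φ h b =
      (torsionOrder K : ℝ) * (Ideal.absNorm (J : Ideal (𝓞 K)) : ℝ) ^ (-s) *
        Zcls m φ C (h * (φ J)⁻¹) s := by
  rw [tsum_G_mul_ideal_eq hJ hs1 hs2 (kap m φ h) (kap_unit_mul hφ h) (kap_nonneg m φ h)
    (kap_le_one m φ h)]
  congr 1
  unfold Zcls
  refine tsum_congr fun I => ?_
  unfold kap
  by_cases hg : Good m φ h (gen hJ I)
  · rw [if_pos hg, if_pos ((good_gen_iff hφ hJ hc h I).mp hg), one_mul]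
  · rw [if_neg hg, if_neg (fun h' => hg ((good_gen_iff hφ hJ hc h I).mpr h')), zero_mul]

/-- Step 2: decomposition of the weighted lattice sum into residue classes modulo `m`. -/
theorem tsum_G_kap_coset (hm : m ≠ ⊥) {J : Ideal (𝓞 K)} (hc : IsCoprime J m) (h : Γ) {s : ℝ}
    (hs1 : 1 < s) (hs2 : s ≤ 2) :
    ∑' b : ↥J, G K s b * kap m φ h b =
      ∑ᶠ r : 𝓞 K ⧸ m, kap m φ h (Quotient.out r) *
        ∑' l : ↥(J ⊓ m), G K s (rep hc r + (l : 𝓞 K)) := by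
  have hsumG : Summable fun b : ↥J => G K s b := (summable_G K hs1 hs2).subtype _
  have hsum : Summable fun b : ↥J => G K s b * kap m φ h b := by
    refine Summable.of_nonneg_of_le (fun b => mul_nonneg (G_nonneg K s _) (kap_nonneg m φ h _))
      (fun b => ?_) hsumG
    exact mul_le_of_le_one_right (G_nonneg K s _) (kap_le_one m φ h _)
  rw [tsum_coset hm hc (f := fun b => G K s b * kap m φ h b) hsum]
  refine finsum_congr fun r => ?_
  rw [← tsum_mul_left]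
  refine tsum_congr fun l => ?_
  have hk : kap m φ h (rep hc r + (l : 𝓞 K)) = kap m φ h (Quotient.out r) := by
    apply kap_eq_of_sub_mem
    have h1 : rep hc r - Quotient.out r ∈ m := by
      rw [← Ideal.Quotient.eq, mk_rep, Ideal.Quotient.mk_out]
    have e : rep hc r + (l : 𝓞 K) - Quotient.out r = (rep hc r - Quotient.out r) + l := by ring
    rw [e]
    exact add_mem h1 l.2.2
  rw [hk, mul_comm]

/-- the final real-number computation -/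
lemma final_estimate {w Z NJ Nm NL n T E S e₂ B₁ B₂ s : ℝ} (hs1 : 1 < s) (hs2 : s ≤ 2)
    (hNJ : 1 ≤ NJ) (hNm : 1 ≤ Nm) (hNL : NL = NJ * Nm) (hn : 0 ≤ n)
    (h1 : w * NJ ^ (-s) * Z = n * T + E) (h2 : NL ^ s * T = S + e₂)
    (hE : |E| ≤ B₁) (he₂ : |e₂| ≤ B₂) :
    |w * Z - n * Nm ^ (-s) * S| ≤ n * B₂ + NJ ^ 2 * B₁ := by
  have hNJ0 : 0 < NJ := by linarith
  have hNm0 : 0 < Nm := by linarith
  have hJs : 0 < NJ ^ s := Real.rpow_pos_of_pos hNJ0 s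
  have hms : 0 < Nm ^ s := Real.rpow_pos_of_pos hNm0 s
  have hJneg : NJ ^ (-s) = (NJ ^ s)⁻¹ := Real.rpow_neg hNJ0.le s
  have hmneg : Nm ^ (-s) = (Nm ^ s)⁻¹ := Real.rpow_neg hNm0.le s
  have hLs : NL ^ s = NJ ^ s * Nm ^ s := by rw [hNL, Real.mul_rpow hNJ0.le hNm0.le]
  have hT : NJ ^ s * T = (Nm ^ s)⁻¹ * (S + e₂) := by
    rw [← h2, hLs]
    field_simp
  have hZ : w * Z = NJ ^ s * (n * T + E) := by
    rw [← h1, hJneg]
    field_simp
  have key : w * Z - n * Nm ^ (-s) * S = n * ((Nm ^ s)⁻¹ * e₂) + NJ ^ s * E := by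
    rw [hZ, hmneg]
    have : NJ ^ s * (n * T + E) = n * (NJ ^ s * T) + NJ ^ s * E := by ring
    rw [this, hT]
    ring
  rw [key]
  have hm1 : (Nm ^ s)⁻¹ ≤ 1 := by
    apply inv_le_one_of_one_le₀
    exact Real.one_le_rpow hNm (by linarith)
  have hJ2 : NJ ^ s ≤ NJ ^ 2 := by
    have := Real.rpow_le_rpow_of_exponent_le hNJ hs2
    rwa [Real.rpow_two] at this
  have hB₁ : 0 ≤ B₁ := (abs_nonneg _).trans hE
  have hB₂ : 0 ≤ B₂ := (abs_nonneg _).trans he₂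
  refine (abs_add_le _ _).trans (add_le_add ?_ ?_)
  · rw [abs_mul, abs_of_nonneg hn, abs_mul, abs_of_pos (inv_pos.mpr hms)]
    refine mul_le_mul_of_nonneg_left ?_ hn
    calc (Nm ^ s)⁻¹ * |e₂| ≤ 1 * B₂ :=
          mul_le_mul hm1 he₂ (abs_nonneg _) zero_le_one
      _ = B₂ := one_mul _
  · rw [abs_mul, abs_of_pos hJs]
    exact mul_le_mul hJ2 hE (abs_nonneg _) (by positivity)

lemma one_le_absNorm (I : (Ideal (𝓞 K))⁰) : (1 : ℝ) ≤ (Ideal.absNorm (I : Ideal (𝓞 K)) : ℝ) := by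
  have : 0 < Ideal.absNorm (I : Ideal (𝓞 K)) :=
    Nat.pos_of_ne_zero (by rw [Ne, Ideal.absNorm_eq_zero_iff]; exact coe_ne_bot I)
  exact_mod_cast this

/-- **Theorem A.** -/
theorem abs_Zcls_sub_le (hm : m ≠ ⊥) (hφ : PrinTriv m φ) (J : (Ideal (𝓞 K))⁰)
    (hc : IsCoprime (J : Ideal (𝓞 K)) m) (h : Γ) :
    ∃ B : ℝ, ∀ s : ℝ, 1 < s → s ≤ 2 →
      |(torsionOrder K : ℝ) * Zcls m φ (ClassGroup.mk0 J)⁻¹ (h * (φ J)⁻¹) s -
        cnt m φ h * (Ideal.absNorm m : ℝ) ^ (-s) * ∑' a, G K s a| ≤ B := by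
  have : Finite (𝓞 K ⧸ m) := Ideal.finiteQuotientOfFreeOfNeBot m hm
  have : Fintype (𝓞 K ⧸ m) := Fintype.ofFinite _
  have hmmem : m ∈ (Ideal (𝓞 K))⁰ := mem_nonZeroDivisors_iff_ne_zero.mpr hm
  set L : (Ideal (𝓞 K))⁰ := J * ⟨m, hmmem⟩ with hLdef
  have hLcoe : ((L : (Ideal (𝓞 K))⁰) : Ideal (𝓞 K)) = (J : Ideal (𝓞 K)) * m := rfl
  have hinf : (J : Ideal (𝓞 K)) ⊓ m = ((L : (Ideal (𝓞 K))⁰) : Ideal (𝓞 K)) := by
    rw [hLcoe]
    exact (Ideal.mul_eq_inf_of_isCoprime hc).symm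
  refine ⟨cnt m φ h * EJ L + (Ideal.absNorm (J : Ideal (𝓞 K)) : ℝ) ^ 2 *
    ∑ r : 𝓞 K ⧸ m, DomSum (rep hc r), fun s hs1 hs2 => ?_⟩
  have hJ : ClassGroup.mk0 J = ((ClassGroup.mk0 J)⁻¹)⁻¹ := (inv_inv _).symm
  have hL : ClassGroup.mk0 L = ((ClassGroup.mk0 L)⁻¹)⁻¹ := (inv_inv _).symm
  have step1 := tsum_G_kap_eq hφ hJ hc h hs1 hs2
  have step2 := tsum_G_kap_coset (φ := φ) hm hc h hs1 hs2
  have hTL := tsum_G_ideal_eq hL hs1 hs2
  have hcmp := abs_torsion_mul_classZeta_sub_le hL hs1 hs2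
  set T : ℝ := ∑' l : ↥((L : (Ideal (𝓞 K))⁰) : Ideal (𝓞 K)), G K s (l : 𝓞 K) with hT
  -- the error terms
  have herr : ∀ r : 𝓞 K ⧸ m,
      |∑' l : ↥((J : Ideal (𝓞 K)) ⊓ m), G K s (rep hc r + (l : 𝓞 K)) - T| ≤ DomSum (rep hc r) := by
    intro r
    have := abs_tsum_translate_sub_le ((J : Ideal (𝓞 K)) ⊓ m) (rep hc r) hs1 hs2
    have e : ∑' l : ↥((J : Ideal (𝓞 K)) ⊓ m), G K s (l : 𝓞 K) = T := by
      rw [hT]
      rw [hinf]
    rwa [e] at this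
  set E : ℝ := ∑ r : 𝓞 K ⧸ m, kap m φ h (Quotient.out r) *
    (∑' l : ↥((J : Ideal (𝓞 K)) ⊓ m), G K s (rep hc r + (l : 𝓞 K)) - T) with hE
  have hEbound : |E| ≤ ∑ r : 𝓞 K ⧸ m, DomSum (rep hc r) := by
    rw [hE]
    refine (Finset.abs_sum_le_sum_abs _ _).trans (Finset.sum_le_sum fun r _ => ?_)
    rw [abs_mul, abs_of_nonneg (kap_nonneg m φ h _)]
    calc kap m φ h (Quotient.out r) * _ ≤ 1 * DomSum (rep hc r) :=
          mul_le_mul (kap_le_one m φ h _) (herr r) (abs_nonneg _) zero_le_one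
      _ = DomSum (rep hc r) := one_mul _
  have h1 : (torsionOrder K : ℝ) * (Ideal.absNorm (J : Ideal (𝓞 K)) : ℝ) ^ (-s) *
      Zcls m φ (ClassGroup.mk0 J)⁻¹ (h * (φ J)⁻¹) s = cnt m φ h * T + E := by
    rw [← step1, step2, finsum_eq_sum_of_fintype, hE, cnt, finsum_eq_sum_of_fintype,
      Finset.sum_mul, ← Finset.sum_add_distrib]
    refine Finset.sum_congr rfl fun r _ => ?_
    ring
  have hNL0 : (0 : ℝ) < (Ideal.absNorm ((L : (Ideal (𝓞 K))⁰) : Ideal (𝓞 K)) : ℝ) := by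
    have := one_le_absNorm L
    linarith
  have h2 : (Ideal.absNorm ((L : (Ideal (𝓞 K))⁰) : Ideal (𝓞 K)) : ℝ) ^ s * T =
      ∑' a, G K s a + ((torsionOrder K : ℝ) * classZeta (ClassGroup.mk0 L)⁻¹ s -
        ∑' a, G K s a) := by
    rw [hTL, Real.rpow_neg hNL0.le]
    have := (Real.rpow_pos_of_pos hNL0 s).ne'
    field_simp
    ring
  have hNL : (Ideal.absNorm ((L : (Ideal (𝓞 K))⁰) : Ideal (𝓞 K)) : ℝ) =
      (Ideal.absNorm (J : Ideal (𝓞 K)) : ℝ) * (Ideal.absNorm m : ℝ) := by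
    rw [hLcoe, map_mul, Nat.cast_mul]
  exact final_estimate hs1 hs2 (one_le_absNorm J) (one_le_absNorm ⟨m, hmmem⟩) hNL
    (cnt_nonneg m φ h) h1 h2 hEbound hcmp

end Fermat.Agent.S55.SI839
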