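import Mathlib
import Fermat.Agent.S55.SI839.TheoremA

/-!
# S55 / RAY-N1 (helper839): differences of partial zeta functions of "ray classes" are bounded

`K` a number field, `m` a nonzero ideal of `𝓞 K`, `Γ` a commutative group and
`φ : (Ideal (𝓞 K))⁰ →* Γ` a homomorphism such that

* (`PrinTriv m φ`) `φ (a) = 1` for every `a ≠ 0` with `a ≡ 1 mod m`,
* every `g : Γ` is `φ I` for some `I` prime to `m`.

Then for all `g g' : Γ` the difference
`∑_{I prime to m, φ I = g} N(I)^(-s) - ∑_{I prime to m, φ I = g'} N(I)^(-s)` is bounded on `(1, 2]`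
(`rayZeta_sub_bounded`, `rayZeta_sub_bounded'`).
-/

set_option autoImplicit false
set_option linter.unusedSectionVars false

open NumberField NumberField.mixedEmbedding NumberField.Units Ideal

open scoped nonZeroDivisors

open Fermat.Agent.S14.H839

namespace Fermat.Agent.S55.SI839

variable {K : Type*} [Field K] [NumberField K]

open scoped Classical

variable (m : Ideal (𝓞 K)) {Γ : Type*} [CommGroup Γ] (φ : (Ideal (𝓞 K))⁰ →* Γ)

/-- the summand of the partial zeta function attached to `g` -/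
noncomputable def zterm (g : Γ) (s : ℝ) (I : (Ideal (𝓞 K))⁰) : ℝ :=
  if IsCoprime (I : Ideal (𝓞 K)) m ∧ φ I = g then (Ideal.absNorm (I : Ideal (𝓞 K)) : ℝ) ^ (-s)
  else 0

/-- the partial zeta function of the ideals prime to `m` with `φ I = g` -/
noncomputable def Zfull (g : Γ) (s : ℝ) : ℝ := ∑' I : (Ideal (𝓞 K))⁰, zterm m φ g s I

lemma zterm_nonneg (g : Γ) (s : ℝ) (I : (Ideal (𝓞 K))⁰) : 0 ≤ zterm m φ g s I := by
  unfold zterm
  split_ifs
  · exact Real.rpow_nonneg (Nat.cast_nonneg _) _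
  · exact le_rfl

lemma zterm_le (g : Γ) (s : ℝ) (I : (Ideal (𝓞 K))⁰) :
    zterm m φ g s I ≤ (Ideal.absNorm (I : Ideal (𝓞 K)) : ℝ) ^ (-s) := by
  unfold zterm
  split_ifs
  · exact le_rfl
  · exact Real.rpow_nonneg (Nat.cast_nonneg _) _

lemma Zcls_eq (C : ClassGroup (𝓞 K)) (g : Γ) (s : ℝ) :
    Zcls m φ C g s = ∑' I : ClassIdeals K C, zterm m φ g s I.1 := rfl

lemma summable_zterm_class (C : ClassGroup (𝓞 K)) (g : Γ) {s : ℝ} (hs1 : 1 < s) (hs2 : s ≤ 2) :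
    Summable fun I : ClassIdeals K C => zterm m φ g s I.1 :=
  Summable.of_nonneg_of_le (fun I => zterm_nonneg m φ g s I.1) (fun I => zterm_le m φ g s I.1)
    (summable_classIdeals C hs1 hs2)

/-- the class-restricted summand, as a function on all nonzero ideals -/
lemma Zcls_eq_tsum_ite (C : ClassGroup (𝓞 K)) (g : Γ) (s : ℝ) :
    Zcls m φ C g s =
      ∑' I : (Ideal (𝓞 K))⁰, if ClassGroup.mk0 I = C then zterm m φ g s I else 0 := by
  rw [Zcls_eq]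
  have := tsum_subtype {I : (Ideal (𝓞 K))⁰ | ClassGroup.mk0 I = C} (zterm m φ g s)
  rw [show (∑' I : ClassIdeals K C, zterm m φ g s I.1) =
    ∑' I : ↥{I : (Ideal (𝓞 K))⁰ | ClassGroup.mk0 I = C}, zterm m φ g s I from rfl, this]
  refine tsum_congr fun I => ?_
  rw [Set.indicator_apply]
  rfl

lemma summable_ite_class (C : ClassGroup (𝓞 K)) (g : Γ) {s : ℝ} (hs1 : 1 < s) (hs2 : s ≤ 2) :
    Summable fun I : (Ideal (𝓞 K))⁰ => if ClassGroup.mk0 I = C then zterm m φ g s I else 0 := by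
  have h := summable_zterm_class m φ C g hs1 hs2
  have h2 : Summable (({I : (Ideal (𝓞 K))⁰ | ClassGroup.mk0 I = C}).indicator (zterm m φ g s)) :=
    summable_subtype_iff_indicator.mp h
  refine h2.congr fun I => ?_
  rw [Set.indicator_apply]
  rfl

/-- decomposition of the partial zeta function according to ideal classes -/
theorem Zfull_eq_sum (g : Γ) {s : ℝ} (hs1 : 1 < s) (hs2 : s ≤ 2) :
    Zfull m φ g s = ∑ C : ClassGroup (𝓞 K), Zcls m φ C g s := by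
  simp_rw [Zcls_eq_tsum_ite]
  rw [← Summable.tsum_finsetSum fun C _ => summable_ite_class m φ C g hs1 hs2]
  unfold Zfull
  refine tsum_congr fun I => ?_
  rw [Finset.sum_ite_eq Finset.univ (ClassGroup.mk0 I) fun _ => zterm m φ g s I]
  simp

variable {m φ}

/-- **RAY-N1.**  Differences of partial zeta functions of "ray classes" are bounded on `(1, 2]`. -/
theorem rayZeta_sub_bounded (hm : m ≠ ⊥) (hφ : PrinTriv m φ)
    (hsurj : ∀ g : Γ, ∃ I : (Ideal (𝓞 K))⁰, IsCoprime (I : Ideal (𝓞 K)) m ∧ φ I = g)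
    (g g' : Γ) :
    ∃ B : ℝ, ∀ s : ℝ, 1 < s → s ≤ 2 → |Zfull m φ g s - Zfull m φ g' s| ≤ B := by
  obtain ⟨T, hTc, hT⟩ := hsurj (g'⁻¹ * g)
  have hrep : ∀ C : ClassGroup (𝓞 K), ∃ J : (Ideal (𝓞 K))⁰,
      ClassGroup.mk0 J = C⁻¹ ∧ IsCoprime (J : Ideal (𝓞 K)) m :=
    fun C => exists_coprime_rep hm C⁻¹
  choose Jr hJr hJrc using hrep
  have hA : ∀ C : ClassGroup (𝓞 K), ∃ B : ℝ, ∀ s : ℝ, 1 < s → s ≤ 2 →
      |(torsionOrder K : ℝ) * Zcls m φ C g s -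
        cnt m φ (g * φ (Jr C)) * (Ideal.absNorm m : ℝ) ^ (-s) * ∑' a, G K s a| ≤ B := by
    intro C
    obtain ⟨B, hB⟩ := abs_Zcls_sub_le hm hφ (Jr C) (hJrc C) (g * φ (Jr C))
    refine ⟨B, fun s hs1 hs2 => ?_⟩
    have := hB s hs1 hs2
    rwa [hJr C, inv_inv, mul_inv_cancel_right] at this
  have hA' : ∀ C : ClassGroup (𝓞 K), ∃ B : ℝ, ∀ s : ℝ, 1 < s → s ≤ 2 →
      |(torsionOrder K : ℝ) * Zcls m φ (C * (ClassGroup.mk0 T)⁻¹) g' s -
        cnt m φ (g * φ (Jr C)) * (Ideal.absNorm m : ℝ) ^ (-s) * ∑' a, G K s a| ≤ B := by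
    intro C
    have hcop : IsCoprime (((Jr C * T : (Ideal (𝓞 K))⁰)) : Ideal (𝓞 K)) m := by
      rw [Submonoid.coe_mul]
      exact IsCoprime.mul_left (hJrc C) hTc
    obtain ⟨B, hB⟩ := abs_Zcls_sub_le hm hφ (Jr C * T) hcop (g * φ (Jr C))
    refine ⟨B, fun s hs1 hs2 => ?_⟩
    have := hB s hs1 hs2
    have e1 : (ClassGroup.mk0 (Jr C * T))⁻¹ = C * (ClassGroup.mk0 T)⁻¹ := by
      rw [map_mul, hJr C, mul_inv, inv_inv]
    have e2 : g * φ (Jr C) * (φ (Jr C * T))⁻¹ = g' := by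
      rw [mul_inv_eq_iff_eq_mul, map_mul, hT]
      calc g * φ (Jr C) = (g' * g'⁻¹) * (g * φ (Jr C)) := by rw [mul_inv_cancel, one_mul]
        _ = g' * (φ (Jr C) * (g'⁻¹ * g)) := by ac_rfl
    rwa [e1, e2] at this
  choose B hB using hA
  choose B' hB' using hA'
  have hw : (0 : ℝ) < torsionOrder K := by exact_mod_cast torsionOrder_pos K
  refine ⟨(∑ C : ClassGroup (𝓞 K), (B C + B' C)) / torsionOrder K, fun s hs1 hs2 => ?_⟩
  rw [le_div_iff₀ hw]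
  have hg : Zfull m φ g s = ∑ C : ClassGroup (𝓞 K), Zcls m φ C g s := Zfull_eq_sum m φ g hs1 hs2
  have hg' : Zfull m φ g' s =
      ∑ C : ClassGroup (𝓞 K), Zcls m φ (C * (ClassGroup.mk0 T)⁻¹) g' s := by
    rw [Zfull_eq_sum m φ g' hs1 hs2]
    exact (Equiv.sum_comp (Equiv.mulRight (ClassGroup.mk0 T)⁻¹)
      (fun C => Zcls m φ C g' s)).symm
  have e : |Zfull m φ g s - Zfull m φ g' s| * (torsionOrder K : ℝ) =
      |∑ C : ClassGroup (𝓞 K), ((torsionOrder K : ℝ) * Zcls m φ C g s -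
        (torsionOrder K : ℝ) * Zcls m φ (C * (ClassGroup.mk0 T)⁻¹) g' s)| := by
    rw [← abs_of_pos hw, ← abs_mul, abs_of_pos hw, hg, hg', Finset.sum_sub_distrib,
      ← Finset.mul_sum, ← Finset.mul_sum]
    congr 1
    ring
  rw [e]
  refine (Finset.abs_sum_le_sum_abs _ _).trans (Finset.sum_le_sum fun C _ => ?_)
  have h1 := hB C s hs1 hs2
  have h2 := hB' C s hs1 hs2
  have e3 : (torsionOrder K : ℝ) * Zcls m φ C g s -
      (torsionOrder K : ℝ) * Zcls m φ (C * (ClassGroup.mk0 T)⁻¹) g' s =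
      ((torsionOrder K : ℝ) * Zcls m φ C g s -
        cnt m φ (g * φ (Jr C)) * (Ideal.absNorm m : ℝ) ^ (-s) * ∑' a, G K s a) -
      ((torsionOrder K : ℝ) * Zcls m φ (C * (ClassGroup.mk0 T)⁻¹) g' s -
        cnt m φ (g * φ (Jr C)) * (Ideal.absNorm m : ℝ) ^ (-s) * ∑' a, G K s a) := by ring
  rw [e3]
  exact (abs_sub _ _).trans (add_le_add h1 h2)

/-- `Zfull` as a sum over a subtype -/
lemma Zfull_eq_tsum_subtype (g : Γ) (s : ℝ) :
    Zfull m φ g s =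
      ∑' I : {I : (Ideal (𝓞 K))⁰ // IsCoprime (I : Ideal (𝓞 K)) m ∧ φ I = g},
        (Ideal.absNorm (I.1 : Ideal (𝓞 K)) : ℝ) ^ (-s) := by
  have := tsum_subtype {I : (Ideal (𝓞 K))⁰ | IsCoprime (I : Ideal (𝓞 K)) m ∧ φ I = g}
    (fun I : (Ideal (𝓞 K))⁰ => (Ideal.absNorm (I : Ideal (𝓞 K)) : ℝ) ^ (-s))
  rw [show (∑' I : {I : (Ideal (𝓞 K))⁰ // IsCoprime (I : Ideal (𝓞 K)) m ∧ φ I = g},
        (Ideal.absNorm (I.1 : Ideal (𝓞 K)) : ℝ) ^ (-s)) =
      ∑' I : ↥{I : (Ideal (𝓞 K))⁰ | IsCoprime (I : Ideal (𝓞 K)) m ∧ φ I = g},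
        (fun I : (Ideal (𝓞 K))⁰ => (Ideal.absNorm (I : Ideal (𝓞 K)) : ℝ) ^ (-s)) I from rfl, this]
  unfold Zfull
  refine tsum_congr fun I => ?_
  rw [Set.indicator_apply]
  rfl

/-- **RAY-N1**, stated with sums over subtypes (pure Mathlib vocabulary). -/
theorem rayZeta_sub_bounded' (hm : m ≠ ⊥)
    (hφ : ∀ (a : 𝓞 K) (ha : a ≠ 0), a - 1 ∈ m →
      φ ⟨Ideal.span {a}, mem_nonZeroDivisors_of_ne_zero (by
        rw [Ne, Ideal.zero_eq_bot, Ideal.span_singleton_eq_bot]; exact ha)⟩ = 1)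
    (hsurj : ∀ g : Γ, ∃ I : (Ideal (𝓞 K))⁰, IsCoprime (I : Ideal (𝓞 K)) m ∧ φ I = g)
    (g g' : Γ) :
    ∃ B : ℝ, ∀ s : ℝ, 1 < s → s ≤ 2 →
      |(∑' I : {I : (Ideal (𝓞 K))⁰ // IsCoprime (I : Ideal (𝓞 K)) m ∧ φ I = g},
          (Ideal.absNorm (I.1 : Ideal (𝓞 K)) : ℝ) ^ (-s)) -
        ∑' I : {I : (Ideal (𝓞 K))⁰ // IsCoprime (I : Ideal (𝓞 K)) m ∧ φ I = g'},
          (Ideal.absNorm (I.1 : Ideal (𝓞 K)) : ℝ) ^ (-s)| ≤ B := by
  obtain ⟨B, hB⟩ := rayZeta_sub_bounded hm (φ := φ) (fun a ha h => hφ a ha h) hsurj g g'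
  refine ⟨B, fun s hs1 hs2 => ?_⟩
  rw [← Zfull_eq_tsum_subtype, ← Zfull_eq_tsum_subtype]
  exact hB s hs1 hs2

end Fermat.Agent.S55.SI839
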